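import Fermat.Agent.Schensted.Rule

/-!
# Growth diagrams of permutations

Filling the grid by the local rule from the marks, and back from its far sides.
-/

set_option autoImplicit false

noncomputable section

namespace FA.Schensted

open Finset Classical
open FA.YoungHook

/-- The shapes of a growth diagram. -/
def growth (X : ℕ → ℕ → Bool) : ℕ → ℕ → Finset (ℕ × ℕ)
  | 0, _ => ∅
  | _ + 1, 0 => ∅
  | i + 1, j + 1 => rule (growth X i j) (growth X (i + 1) j) (growth X i (j + 1)) (X i j)

/-- The number of marks in a row up to a column. -/
def rowCount (X : ℕ → ℕ → Bool) (i j : ℕ) : ℕ := ((range j).filter fun b => X i b = true).card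

/-- The number of marks in a column up to a row. -/
def colCount (X : ℕ → ℕ → Bool) (i j : ℕ) : ℕ := ((range i).filter fun a => X a j = true).card

/-- At most one mark in each row and column. -/
structure Sparse (X : ℕ → ℕ → Bool) : Prop where
  row : ∀ i b b', X i b = true → X i b' = true → b = b'
  col : ∀ a a' j, X a j = true → X a' j = true → a = a'

variable {X : ℕ → ℕ → Bool}

lemma growth_zero_right (i : ℕ) : growth X i 0 = ∅ := by cases i <;> simp [growth]

lemma growth_zero_left (j : ℕ) : growth X 0 j = ∅ := by simp [growth]

lemma isShape_empty : IsShape (∅ : Finset (ℕ × ℕ)) := by simp [IsShape, IsLowerSet]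

lemma rowCount_succ (i j : ℕ) :
    rowCount X i (j + 1) = rowCount X i j + (X i j).toNat := by
  unfold rowCount
  rw [range_add_one, filter_insert]
  cases h : X i j <;> simp

lemma rowCount_zero_of_mark (hX : Sparse X) {i j : ℕ} (h : X i j = true) : rowCount X i j = 0 := by
  rw [rowCount, card_eq_zero, filter_eq_empty_iff]
  intro b hb hb'
  exact (mem_range.1 hb).ne (hX.row i b j hb' h)

lemma rowCount_le_one (hX : Sparse X) (i j : ℕ) : rowCount X i j ≤ 1 :=
  card_le_one.2 fun a ha b hb => hX.row i a b (mem_filter.1 ha).2 (mem_filter.1 hb).2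

lemma colCount_succ (i j : ℕ) :
    colCount X (i + 1) j = colCount X i j + (X i j).toNat := by
  unfold colCount
  rw [range_add_one, filter_insert]
  cases h : X i j <;> simp

lemma colCount_zero_of_mark (hX : Sparse X) {i j : ℕ} (h : X i j = true) : colCount X i j = 0 := by
  rw [colCount, card_eq_zero, filter_eq_empty_iff]
  intro a ha ha'
  exact (mem_range.1 ha).ne (hX.col a i j ha' h)

/-- The invariants of a growth diagram. -/
theorem growth_props (hX : Sparse X) : ∀ i j : ℕ,
    IsShape (growth X i j) ∧
      Step (growth X i j) (growth X (i + 1) j) ∧ Step (growth X i j) (growth X i (j + 1)) ∧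
      (growth X (i + 1) j).card = (growth X i j).card + rowCount X i j ∧
      (growth X i (j + 1)).card = (growth X i j).card + colCount X i j ∧
      Valid (growth X i j) (growth X (i + 1) j) (growth X i (j + 1)) (X i j) := by
  -- a square is good once its shapes and steps are
  have square : ∀ i j, IsShape (growth X i j) → IsShape (growth X (i + 1) j) →
      IsShape (growth X i (j + 1)) → Step (growth X i j) (growth X (i + 1) j) →
      Step (growth X i j) (growth X i (j + 1)) →
      (growth X (i + 1) j).card = (growth X i j).card + rowCount X i j →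
      (growth X i (j + 1)).card = (growth X i j).card + colCount X i j →
      Valid (growth X i j) (growth X (i + 1) j) (growth X i (j + 1)) (X i j) := by
    intro i j h0 h1 h2 h3 h4 h5 h6
    refine ⟨h0, h1, h2, h3, h4, fun hx => ⟨?_, ?_⟩⟩
    · rw [rowCount_zero_of_mark hX hx, add_zero] at h5
      exact (eq_of_subset_of_card_le h3.1 h5.le).symm
    · rw [colCount_zero_of_mark hX hx, add_zero] at h6
      exact (eq_of_subset_of_card_le h4.1 h6.le).symm
  intro i
  induction i with
  | zero =>
    -- the shapes of the first column
    have col0 : ∀ j, IsShape (growth X 1 j) ∧ Step (growth X 0 j) (growth X 1 j) ∧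
        (growth X 1 j).card = (growth X 0 j).card + rowCount X 0 j := by
      intro j
      induction j with
      | zero => simp [growth, isShape_empty, step_self, rowCount]
      | succ j ih =>
        obtain ⟨h1, h2, h3⟩ := ih
        have hv := square 0 j (by rw [growth_zero_left]; exact isShape_empty) h1
          (by rw [growth_zero_left]; exact isShape_empty) h2
          (by rw [growth_zero_left, growth_zero_left]; exact step_self _) h3
          (by simp [growth_zero_left, colCount])
        obtain ⟨e1, -, e3, e4, -⟩ := rule_forward hv
        rw [← show growth X 1 (j + 1) = rule (growth X 0 j) (growth X 1 j) (growth X 0 (j + 1)) (X 0 j)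
          by simp [growth]] at e1 e3 e4
        refine ⟨e1, e3, ?_⟩
        simp only [Nat.zero_add] at e4
        rw [rowCount_succ]
        omega
    intro j
    obtain ⟨h1, h2, h3⟩ := col0 j
    have s0 : IsShape (growth X 0 j) := by rw [growth_zero_left]; exact isShape_empty
    have s1 : Step (growth X 0 j) (growth X 0 (j + 1)) := by
      rw [growth_zero_left, growth_zero_left]; exact step_self _
    have c1 : (growth X 0 (j + 1)).card = (growth X 0 j).card + colCount X 0 j := by
      simp [growth_zero_left, colCount]
    exact ⟨s0, h2, s1, h3, c1, square 0 j s0 h1 (by rw [growth_zero_left]; exact isShape_empty) h2 s1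
      h3 c1⟩
  | succ i IH =>
    -- read off the next row from the squares of this one
    have next' : ∀ j, IsShape (growth X (i + 1) j) ∧
        Step (growth X (i + 1) j) (growth X (i + 1) (j + 1)) ∧
        (growth X (i + 1) (j + 1)).card = (growth X (i + 1) j).card + colCount X (i + 1) j := by
      intro j
      obtain ⟨-, -, -, -, hc, hv⟩ := IH j
      obtain ⟨-, e2, -, e4, -⟩ := rule_forward hv
      rw [← show growth X (i + 1) (j + 1) =
        rule (growth X i j) (growth X (i + 1) j) (growth X i (j + 1)) (X i j) by simp [growth]] at e2 e4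
      refine ⟨hv.shape₁, e2, ?_⟩
      rw [colCount_succ]
      omega
    have col : ∀ j, IsShape (growth X (i + 2) j) ∧ Step (growth X (i + 1) j) (growth X (i + 2) j) ∧
        (growth X (i + 2) j).card = (growth X (i + 1) j).card + rowCount X (i + 1) j := by
      intro j
      induction j with
      | zero => simp [growth_zero_right, isShape_empty, step_self, rowCount]
      | succ j ih =>
        obtain ⟨h1, h2, h3⟩ := ih
        obtain ⟨n1, n2, n3⟩ := next' j
        have hv := square (i + 1) j n1 h1 (next' (j + 1)).1 h2 n2 h3 n3
        obtain ⟨e1, -, e3, e4, -⟩ := rule_forward hv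
        rw [← show growth X (i + 2) (j + 1) =
          rule (growth X (i + 1) j) (growth X (i + 2) j) (growth X (i + 1) (j + 1)) (X (i + 1) j)
          by simp [growth]] at e1 e3 e4
        refine ⟨e1, e3, ?_⟩
        simp only [show i + 1 + 1 = i + 2 from rfl] at e4
        rw [rowCount_succ]
        omega
    intro j
    obtain ⟨h1, h2, h3⟩ := col j
    obtain ⟨n1, n2, n3⟩ := next' j
    exact ⟨n1, h2, n2, h3, n3, square (i + 1) j n1 h1 (next' (j + 1)).1 h2 n2 h3 n3⟩

/-- Transposing the marks transposes the diagram. -/
lemma growth_swap : ∀ i j, growth (fun a b => X b a) i j = growth X j i := by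
  intro i
  induction i with
  | zero => intro j; rw [growth_zero_left, growth_zero_right]
  | succ i ih =>
    intro j
    induction j with
    | zero => rw [growth_zero_right, growth_zero_left]
    | succ j ih' =>
      rw [growth, growth, ih j, ih (j + 1), ih']
      unfold rule
      by_cases hx : X j i = true
      · simp [hx]
      · by_cases he : growth X (j + 1) i = growth X j (i + 1)
        · rw [he]
        · simp only [hx, Bool.false_eq_true, if_false, he, Ne.symm he, false_and]
          exact union_comm _ _

/-- The shapes read back from the far sides. -/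
def backShape (n : ℕ) (P Q : ℕ → Finset (ℕ × ℕ)) : ℕ → ℕ → Finset (ℕ × ℕ)
  | 0, b => Q (n - b)
  | a + 1, 0 => P (n - (a + 1))
  | a + 1, b + 1 =>
    (invRule (backShape n P Q a (b + 1)) (backShape n P Q (a + 1) b) (backShape n P Q a b)).1

/-- The marks read back from the far sides. -/
def backMark (n : ℕ) (P Q : ℕ → Finset (ℕ × ℕ)) (i j : ℕ) : Bool :=
  if i < n ∧ j < n then
    (invRule (backShape n P Q (n - i - 1) (n - j - 1 + 1)) (backShape n P Q (n - i - 1 + 1) (n - j - 1))
      (backShape n P Q (n - i - 1) (n - j - 1))).2
  else false

/-- A side of the diagram: one cell is added at each step up to `n`. -/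
structure IsChainOf (n : ℕ) (P : ℕ → Finset (ℕ × ℕ)) : Prop where
  shape : ∀ i, IsShape (P i)
  card : ∀ i, (P i).card = min i n
  mono : ∀ i, P i ⊆ P (i + 1)

lemma IsChainOf.step {n : ℕ} {P : ℕ → Finset (ℕ × ℕ)} (h : IsChainOf n P) (i : ℕ) :
    Step (P i) (P (i + 1)) := ⟨h.mono i, by rw [h.card, h.card]; omega⟩

lemma IsChainOf.const {n : ℕ} {P : ℕ → Finset (ℕ × ℕ)} (h : IsChainOf n P) :
    ∀ i, n ≤ i → P i = P n := by
  intro i hi
  induction i, hi using Nat.le_induction with
  | base => rfl
  | succ i hi ih =>
    rw [← ih]
    exact (eq_of_subset_of_card_le (h.mono i) (by rw [h.card, h.card]; omega)).symm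

variable {n : ℕ} {P Q : ℕ → Finset (ℕ × ℕ)}

/-- The invariants of the reading back. -/
theorem back_props (hP : IsChainOf n P) (hQ : IsChainOf n Q) (hPQ : P n = Q n) :
    ∀ a b, IsShape (backShape n P Q a b) ∧
      Step (backShape n P Q (a + 1) b) (backShape n P Q a b) ∧
      Step (backShape n P Q a (b + 1)) (backShape n P Q a b) := by
  have hstep : ∀ {R : ℕ → Finset (ℕ × ℕ)}, IsChainOf n R → ∀ b, Step (R (n - (b + 1))) (R (n - b)) := by
    intro R hR b
    rcases Nat.lt_or_ge b n with h | h
    · obtain ⟨c, hc⟩ : ∃ c, n - b = c + 1 := ⟨n - b - 1, by omega⟩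
      rw [show n - (b + 1) = c by omega, hc]
      exact hR.step c
    · rw [show n - (b + 1) = 0 by omega, show n - b = 0 by omega]; exact step_self _
  have hQ0 : ∀ b, backShape n P Q 0 b = Q (n - b) := fun b => by rw [backShape]
  intro a
  induction a with
  | zero =>
    have row : ∀ b, IsShape (backShape n P Q 1 b) ∧
        Step (backShape n P Q 1 b) (backShape n P Q 0 b) := by
      intro b
      induction b with
      | zero =>
        rw [backShape.eq_2, hQ0, Nat.sub_zero, ← hPQ]
        refine ⟨hP.shape _, ?_⟩
        simpa using hstep hP 0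
      | succ b ih =>
        rw [show backShape n P Q 1 (b + 1) = (invRule (backShape n P Q 0 (b + 1))
          (backShape n P Q 1 b) (backShape n P Q 0 b)).1 by rw [backShape.eq_3]]
        obtain ⟨hv, -⟩ := rule_backward (m := backShape n P Q 0 (b + 1))
          (by rw [hQ0]; exact hQ.shape _) ih.1 (by rw [hQ0]; exact hQ.shape _)
          (by rw [hQ0, hQ0]; exact hstep hQ b) ih.2
        exact ⟨hv.shape₀, hv.step₁⟩
    intro b
    refine ⟨by rw [hQ0]; exact hQ.shape _, (row b).2, ?_⟩
    rw [hQ0, hQ0]
    exact hstep hQ b
  | succ a IH =>
    have row : ∀ b, IsShape (backShape n P Q (a + 2) b) ∧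
        Step (backShape n P Q (a + 2) b) (backShape n P Q (a + 1) b) ∧
        Step (backShape n P Q (a + 1) (b + 1)) (backShape n P Q (a + 1) b) := by
      have hnext : ∀ b, IsShape (backShape n P Q (a + 1) b) ∧
          Step (backShape n P Q (a + 1) (b + 1)) (backShape n P Q (a + 1) b) := by
        intro b
        have key : ∀ b, IsShape (backShape n P Q (a + 1) b) →
            IsShape (backShape n P Q (a + 1) (b + 1)) ∧
              Step (backShape n P Q (a + 1) (b + 1)) (backShape n P Q (a + 1) b) := by
          intro b hb
          rw [show backShape n P Q (a + 1) (b + 1) = (invRule (backShape n P Q a (b + 1))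
            (backShape n P Q (a + 1) b) (backShape n P Q a b)).1 by rw [backShape]]
          obtain ⟨hv, -⟩ := rule_backward (IH (b + 1)).1 hb (IH b).1 (IH b).2.2 (IH b).2.1
          exact ⟨hv.shape₀, hv.step₂⟩
        have hs : IsShape (backShape n P Q (a + 1) b) := by
          induction b with
          | zero => rw [backShape]; exact hP.shape _
          | succ b ih => exact (key b ih).1
        exact ⟨hs, (key b hs).2⟩
      intro b
      induction b with
      | zero =>
        refine ⟨by rw [backShape]; exact hP.shape _, ?_, (hnext 0).2⟩
        rw [backShape, backShape]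
        exact hstep hP (a + 1)
      | succ b ih =>
        refine ⟨?_, ?_, (hnext (b + 1)).2⟩ <;>
        rw [show backShape n P Q (a + 2) (b + 1) = (invRule (backShape n P Q (a + 1) (b + 1))
          (backShape n P Q (a + 2) b) (backShape n P Q (a + 1) b)).1 by rw [backShape]]
        · exact (rule_backward (hnext (b + 1)).1 ih.1 (hnext b).1 (hnext b).2 ih.2.1).1.shape₀
        · exact (rule_backward (hnext (b + 1)).1 ih.1 (hnext b).1 (hnext b).2 ih.2.1).1.step₁
    intro b
    obtain ⟨-, e2, e3⟩ := row b
    refine ⟨?_, e2, e3⟩
    cases b with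
    | zero => rw [backShape]; exact hP.shape _
    | succ b =>
      rw [backShape]
      exact (rule_backward (IH (b + 1)).1
        (by
          have h : ∀ b, IsShape (backShape n P Q (a + 1) b) := by
            intro b
            induction b with
            | zero => rw [backShape]; exact hP.shape _
            | succ b ih =>
              rw [backShape]
              exact (rule_backward (IH (b + 1)).1 ih (IH b).1 (IH b).2.2 (IH b).2.1).1.shape₀
          exact h b)
        (IH b).1 (IH b).2.2 (IH b).2.1).1.shape₀

/-- Reading back undoes filling. -/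
theorem backShape_growth (hX : Sparse X) : ∀ a b, a ≤ n → b ≤ n →
    backShape n (fun i => growth X i n) (fun j => growth X n j) a b = growth X (n - a) (n - b) := by
  intro a
  induction a with
  | zero => intro b _ _; rw [backShape]; rfl
  | succ a ih =>
    intro b
    induction b with
    | zero => intro _ _; rw [backShape]; rfl
    | succ b ih' =>
      intro ha hb
      rw [backShape, ih (b + 1) (by omega) hb, ih' ha (by omega), ih b (by omega) (by omega)]
      obtain ⟨i, hi⟩ : ∃ i, n - a = i + 1 := ⟨n - a - 1, by omega⟩
      obtain ⟨j, hj⟩ : ∃ j, n - b = j + 1 := ⟨n - b - 1, by omega⟩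
      rw [show n - (a + 1) = i by omega, show n - (b + 1) = j by omega, hi, hj]
      obtain ⟨-, -, -, -, -, hv⟩ := growth_props hX i j
      conv_lhs =>
        arg 1
        arg 3
        rw [show growth X (i + 1) (j + 1) =
          rule (growth X i j) (growth X (i + 1) j) (growth X i (j + 1)) (X i j) by simp [growth]]
      rw [(rule_forward hv).2.2.2.2.1]

theorem backMark_growth (hX : Sparse X) {i j : ℕ} (hi : i < n) (hj : j < n) :
    backMark n (fun a => growth X a n) (fun b => growth X n b) i j = X i j := by
  rw [backMark, if_pos ⟨hi, hj⟩, backShape_growth hX _ _ (by omega) (by omega),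
    backShape_growth hX _ _ (by omega) (by omega), backShape_growth hX _ _ (by omega) (by omega),
    show n - (n - i - 1) = i + 1 by omega, show n - (n - j - 1 + 1) = j by omega,
    show n - (n - i - 1 + 1) = i by omega, show n - (n - j - 1) = j + 1 by omega]
  obtain ⟨-, -, -, -, -, hv⟩ := growth_props hX i j
  rw [show growth X (i + 1) (j + 1) =
    rule (growth X i j) (growth X (i + 1) j) (growth X i (j + 1)) (X i j) by simp [growth],
    (rule_forward hv).2.2.2.2.1]

/-- Filling undoes reading back. -/
theorem growth_backMark (hP : IsChainOf n P) (hQ : IsChainOf n Q) (hPQ : P n = Q n) :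
    ∀ i j, i ≤ n → j ≤ n → growth (backMark n P Q) i j = backShape n P Q (n - i) (n - j) := by
  -- the near sides are empty
  have hempty : ∀ a, backShape n P Q a n = ∅ ∧ backShape n P Q n a = ∅ := by
    have hmono : ∀ a b, backShape n P Q (a + 1) b ⊆ backShape n P Q a b ∧
        backShape n P Q a (b + 1) ⊆ backShape n P Q a b :=
      fun a b => ⟨(back_props hP hQ hPQ a b).2.1.1, (back_props hP hQ hPQ a b).2.2.1⟩
    intro a
    constructor
    · induction a with
      | zero =>
        rw [backShape, Nat.sub_self, ← card_eq_zero, hQ.card, Nat.zero_min]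
      | succ a ih => exact subset_empty.1 (ih ▸ (hmono a n).1)
    · induction a with
      | zero =>
        cases n with
        | zero => rw [backShape, Nat.sub_self, ← card_eq_zero, hQ.card, Nat.zero_min]
        | succ m => rw [backShape, Nat.sub_self, ← card_eq_zero, hP.card, Nat.zero_min]
      | succ a ih => exact subset_empty.1 (ih ▸ (hmono n a).2)
  intro i
  induction i with
  | zero => intro j _ _; rw [growth_zero_left, Nat.sub_zero, (hempty _).2]
  | succ i ih =>
    intro j
    induction j with
    | zero => intro _ _; rw [growth_zero_right, Nat.sub_zero, (hempty _).1]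
    | succ j ih' =>
      intro hi hj
      rw [growth, ih j (by omega) (by omega), ih' hi (by omega), ih (j + 1) (by omega) hj]
      rw [backMark, if_pos ⟨by omega, by omega⟩]
      obtain ⟨a, ha⟩ : ∃ a, n - i = a + 1 := ⟨n - i - 1, by omega⟩
      obtain ⟨b, hb⟩ : ∃ b, n - j = b + 1 := ⟨n - j - 1, by omega⟩
      rw [show n - (i + 1) = a by omega, show n - (j + 1) = b by omega,
        show n - i - 1 = a by omega, show n - j - 1 = b by omega, ha, hb]
      conv_lhs => arg 1; rw [backShape]
      exact (rule_backward (back_props hP hQ hPQ a (b + 1)).1 (back_props hP hQ hPQ (a + 1) b).1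
        (back_props hP hQ hPQ a b).1 (back_props hP hQ hPQ a b).2.2
        (back_props hP hQ hPQ a b).2.1).2

end FA.Schensted
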