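import Fermat.Agent.Schensted.Growth

/-!
# The correspondence of Robinson and Schensted

Permutations correspond to pairs of standard tableaux of one shape, whose first row has the length
of a longest increasing subsequence.
-/

set_option autoImplicit false

noncomputable section

namespace FA.Schensted

open Finset Classical
open FA.YoungHook

variable {n : ℕ}

/-- The marks of a permutation. -/
def permMark (σ : Equiv.Perm (Fin n)) (i j : ℕ) : Bool :=
  if h : i < n then decide ((σ ⟨i, h⟩).val = j) else false

lemma permMark_iff {σ : Equiv.Perm (Fin n)} {i j : ℕ} :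
    permMark σ i j = true ↔ ∃ h : i < n, (σ ⟨i, h⟩).val = j := by
  unfold permMark
  split_ifs with h <;> simp [h]

lemma permMark_symm (σ : Equiv.Perm (Fin n)) (i j : ℕ) :
    permMark σ.symm i j = permMark σ j i := by
  rw [Bool.eq_iff_iff, permMark_iff, permMark_iff]
  constructor
  · rintro ⟨h, rfl⟩
    exact ⟨(σ.symm ⟨i, h⟩).isLt, by simp⟩
  · rintro ⟨h, rfl⟩
    exact ⟨(σ ⟨j, h⟩).isLt, by simp⟩

lemma sparse_permMark (σ : Equiv.Perm (Fin n)) : Sparse (permMark σ) := by
  refine ⟨fun i b b' h h' => ?_, fun a a' j h h' => ?_⟩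
  · obtain ⟨h1, rfl⟩ := permMark_iff.1 h
    obtain ⟨_, rfl⟩ := permMark_iff.1 h'
    rfl
  · obtain ⟨h1, rfl⟩ := permMark_iff.1 h
    obtain ⟨_, he⟩ := permMark_iff.1 h'
    have := σ.injective (Fin.ext he)
    exact (Fin.mk.inj_iff.1 this).symm

lemma colCount_permMark (σ : Equiv.Perm (Fin n)) (j : ℕ) :
    colCount (permMark σ) n j = if j < n then 1 else 0 := by
  split_ifs with hj
  · rw [colCount, card_eq_one]
    refine ⟨(σ.symm ⟨j, hj⟩).val, ?_⟩
    ext a
    simp only [mem_filter, mem_range, mem_singleton, permMark_iff]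
    constructor
    · rintro ⟨-, h, he⟩
      have : (⟨a, h⟩ : Fin n) = σ.symm ⟨j, hj⟩ := by
        rw [σ.eq_symm_apply]; exact Fin.ext he
      exact congrArg Fin.val this
    · rintro rfl
      exact ⟨(σ.symm ⟨j, hj⟩).isLt, (σ.symm ⟨j, hj⟩).isLt, by simp⟩
  · rw [colCount, card_eq_zero, filter_eq_empty_iff]
    intro a _ h
    obtain ⟨h', he⟩ := permMark_iff.1 h
    exact hj (he ▸ (σ ⟨a, h'⟩).isLt)

lemma isChainOf_growth_right (σ : Equiv.Perm (Fin n)) :
    IsChainOf n fun j => growth (permMark σ) n j := by
  have hp := growth_props (sparse_permMark σ) n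
  refine ⟨fun j => (hp j).1, fun j => ?_, fun j => (hp j).2.2.1.1⟩
  induction j with
  | zero => simp [growth_zero_right]
  | succ j ih =>
    rw [(hp j).2.2.2.2.1, ih, colCount_permMark]
    split_ifs <;> omega

lemma growth_perm_symm (σ : Equiv.Perm (Fin n)) (i j : ℕ) :
    growth (permMark σ.symm) i j = growth (permMark σ) j i := by
  rw [show permMark σ.symm = fun a b => permMark σ b a from funext fun a => funext fun b =>
    permMark_symm σ a b, growth_swap]

lemma isChainOf_growth_left (σ : Equiv.Perm (Fin n)) :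
    IsChainOf n fun i => growth (permMark σ) i n := by
  have h := isChainOf_growth_right σ.symm
  simp only [growth_perm_symm] at h
  exact h

/-- The two sides of a growth diagram. -/
abbrev SidePair (n : ℕ) :=
  {p : (ℕ → Finset (ℕ × ℕ)) × (ℕ → Finset (ℕ × ℕ)) //
    IsChainOf n p.1 ∧ IsChainOf n p.2 ∧ p.1 n = p.2 n}

/-- The sides of the diagram of a permutation. -/
def sides (σ : Equiv.Perm (Fin n)) : SidePair n :=
  ⟨(fun i => growth (permMark σ) i n, fun j => growth (permMark σ) n j),
    isChainOf_growth_left σ, isChainOf_growth_right σ, rfl⟩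

lemma sides_injective : Function.Injective (sides (n := n)) := by
  intro σ τ h
  have h1 := congrArg Subtype.val h
  simp only [sides, Prod.mk.injEq] at h1
  refine Equiv.ext fun a => Fin.ext ?_
  have e := backMark_growth (sparse_permMark τ) a.isLt (σ a).isLt
  rw [← h1.1, ← h1.2, backMark_growth (sparse_permMark σ) a.isLt (σ a).isLt] at e
  have hσ : permMark σ a (σ a) = true := permMark_iff.2 ⟨a.isLt, rfl⟩
  rw [hσ] at e
  exact (permMark_iff.1 e.symm).2.symm

lemma sides_surjective : Function.Surjective (sides (n := n)) := by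
  rintro ⟨⟨P, Q⟩, hP, hQ, hPQ⟩
  simp only at hP hQ hPQ
  set X := backMark n P Q with hX
  have hfill := growth_backMark hP hQ hPQ
  have htop : ∀ i, i ≤ n → growth X i n = P i := by
    intro i hi
    rw [hfill i n hi le_rfl, Nat.sub_self]
    rcases Nat.eq_zero_or_pos (n - i) with h | h
    · rw [h, backShape.eq_1, Nat.sub_zero, show i = n by omega, hPQ]
    · obtain ⟨a, ha⟩ : ∃ a, n - i = a + 1 := ⟨n - i - 1, by omega⟩
      rw [ha, backShape.eq_2, ← ha, show n - (n - i) = i by omega]
  have hright : ∀ j, j ≤ n → growth X n j = Q j := by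
    intro j hj
    rw [hfill n j le_rfl hj, Nat.sub_self, backShape.eq_1, show n - (n - j) = j by omega]
  -- each square of the grid is valid, which counts the marks
  have hcount : ∀ i j, i < n → j < n →
      (growth X (i + 1) (j + 1)).card + (growth X i j).card =
        (growth X (i + 1) j).card + (growth X i (j + 1)).card + (X i j).toNat := by
    intro i j hi hj
    obtain ⟨a, ha⟩ : ∃ a, n - i = a + 1 := ⟨n - i - 1, by omega⟩
    obtain ⟨b, hb⟩ : ∃ b, n - j = b + 1 := ⟨n - j - 1, by omega⟩
    rw [hfill (i + 1) (j + 1) hi hj, hfill i j hi.le hj.le, hfill (i + 1) j hi hj.le,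
      hfill i (j + 1) hi.le hj, show n - (i + 1) = a by omega, show n - (j + 1) = b by omega, ha, hb,
      hX, backMark, if_pos ⟨hi, hj⟩, show n - i - 1 = a by omega, show n - j - 1 = b by omega,
      backShape.eq_3]
    have hb' := back_props hP hQ hPQ
    obtain ⟨hv, he⟩ := rule_backward (hb' a (b + 1)).1 (hb' (a + 1) b).1 (hb' a b).1 (hb' a b).2.2
      (hb' a b).2.1
    have := (rule_forward hv).2.2.2.1
    rw [he] at this
    exact this
  have hrowsum : ∀ i, i < n → ∀ j, j ≤ n →
      (growth X (i + 1) j).card = (growth X i j).card + rowCount X i j := by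
    intro i hi j
    induction j with
    | zero => intro _; simp [growth_zero_right, rowCount]
    | succ j ih =>
      intro hj
      have := hcount i j hi hj
      have := ih (by omega)
      rw [rowCount_succ]
      omega
  have hcolsum : ∀ j, j < n → ∀ i, i ≤ n →
      (growth X i (j + 1)).card = (growth X i j).card + colCount X i j := by
    intro j hj i
    induction i with
    | zero => intro _; simp [growth_zero_left, colCount]
    | succ i ih =>
      intro hi
      have := hcount i j hi hj
      have := ih (by omega)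
      rw [colCount_succ]
      omega
  have hrow1 : ∀ i, i < n → rowCount X i n = 1 := by
    intro i hi
    have := hrowsum i hi n le_rfl
    rw [htop i hi.le, htop (i + 1) hi, hP.card, hP.card] at this
    omega
  have hcol1 : ∀ j, j < n → colCount X n j = 1 := by
    intro j hj
    have := hcolsum j hj n le_rfl
    rw [hright j hj.le, hright (j + 1) hj, hQ.card, hQ.card] at this
    omega
  have hex : ∀ a : Fin n, ∃ b : Fin n, X a b = true := by
    intro a
    obtain ⟨b, hb⟩ := card_pos.1 (lt_of_lt_of_eq Nat.one_pos (hrow1 a a.isLt).symm)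
    exact ⟨⟨b, mem_range.1 (mem_filter.1 hb).1⟩, (mem_filter.1 hb).2⟩
  choose f hf using hex
  have hinj : Function.Injective f := by
    intro a a' he
    have h2 : X a' (f a) = true := by rw [he]; exact hf a'
    exact Fin.ext (card_le_one.1 (le_of_eq (hcol1 _ (f a).isLt)) _
      (mem_filter.2 ⟨mem_range.2 a.isLt, hf a⟩) _ (mem_filter.2 ⟨mem_range.2 a'.isLt, h2⟩))
  set σ : Equiv.Perm (Fin n) := Equiv.ofBijective f (Finite.injective_iff_bijective.1 hinj)
  have hσX : permMark σ = X := by
    funext i j
    rw [Bool.eq_iff_iff, permMark_iff]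
    constructor
    · rintro ⟨h, rfl⟩; exact hf ⟨i, h⟩
    · intro h
      have hij : i < n ∧ j < n := by
        by_contra hn
        rw [hX, backMark, if_neg hn] at h
        exact Bool.noConfusion h
      exact ⟨hij.1, card_le_one.1 (le_of_eq (hrow1 i hij.1)) _
        (mem_filter.2 ⟨mem_range.2 (f ⟨i, hij.1⟩).isLt, hf ⟨i, hij.1⟩⟩) _
        (mem_filter.2 ⟨mem_range.2 hij.2, h⟩)⟩
  refine ⟨σ, Subtype.ext (Prod.ext (funext fun i => ?_) (funext fun j => ?_))⟩
  · show growth (permMark σ) i n = P i
    rcases Nat.le_total i n with h | h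
    · rw [hσX, htop i h]
    · rw [(isChainOf_growth_left σ).const i h, hP.const i h, hσX]
      exact htop n le_rfl
  · show growth (permMark σ) n j = Q j
    rcases Nat.le_total j n with h | h
    · rw [hσX, hright j h]
    · rw [(isChainOf_growth_right σ).const j h, hQ.const j h, hσX]
      exact hright n le_rfl

/-- An increasing subsequence inside the rectangle `i × j`. -/
def IncIn (σ : Equiv.Perm (Fin n)) (i j : ℕ) (s : Finset (Fin n)) : Prop :=
  StrictMonoOn σ (s : Set (Fin n)) ∧ ∀ a ∈ s, a.val < i ∧ (σ a).val < j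

/-- The first row is the longest increasing subsequence. -/
theorem first_row (σ : Equiv.Perm (Fin n)) : ∀ i j : ℕ,
    (∀ s, IncIn σ i j s → s.card ≤ rlen (growth (permMark σ) i j) 0) ∧
      ∃ s, IncIn σ i j s ∧ s.card = rlen (growth (permMark σ) i j) 0 := by
  have hempty : ∀ i j, (i = 0 ∨ j = 0) → (∀ s, IncIn σ i j s → s.card ≤ 0) := by
    intro i j h s hs
    rcases s.eq_empty_or_nonempty with rfl | ⟨a, ha⟩
    · simp
    · have := hs.2 a ha; omega
  intro i
  induction i with
  | zero =>
    intro j
    rw [growth_zero_left]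
    exact ⟨fun s hs => (hempty 0 j (Or.inl rfl) s hs).trans (Nat.zero_le _),
      ∅, ⟨by simp [StrictMonoOn], by simp⟩, by simp [rlen]⟩
  | succ i ih =>
    intro j
    induction j with
    | zero =>
      rw [growth_zero_right]
      exact ⟨fun s hs => (hempty _ 0 (Or.inr rfl) s hs).trans (Nat.zero_le _),
        ∅, ⟨by simp [StrictMonoOn], by simp⟩, by simp [rlen]⟩
    | succ j ih' =>
      obtain ⟨-, -, -, -, -, hv⟩ := growth_props (sparse_permMark σ) i j
      have hlen := (rule_forward hv).2.2.2.2.2
      rw [← show growth (permMark σ) (i + 1) (j + 1) = rule (growth (permMark σ) i j)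
        (growth (permMark σ) (i + 1) j) (growth (permMark σ) i (j + 1)) (permMark σ i j)
        by simp [growth]] at hlen
      obtain ⟨ub0, s0, hs0, hc0⟩ := ih j
      obtain ⟨ub1, s1, hs1, hc1⟩ := ih'
      obtain ⟨ub2, s2, hs2, hc2⟩ := ih (j + 1)
      by_cases hx : permMark σ i j = true
      · rw [if_pos hx] at hlen
        rw [hlen]
        obtain ⟨hi, hij⟩ := permMark_iff.1 hx
        set a : Fin n := ⟨i, hi⟩ with ha
        constructor
        · intro s hs
          have herase : IncIn σ i j (s.erase a) := by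
            refine ⟨hs.1.mono (by simp), fun b hb => ?_⟩
            obtain ⟨hne, hb⟩ := mem_erase.1 hb
            obtain ⟨h1, h2⟩ := hs.2 b hb
            have e1 : b.val ≠ i := fun e => hne (Fin.ext e)
            have e2 : (σ b).val ≠ j := fun e => hne (σ.injective (Fin.ext (e.trans hij.symm)))
            omega
          have := ub0 _ herase
          have := pred_card_le_card_erase (s := s) (a := a)
          omega
        · have hna : a ∉ s0 := fun h => lt_irrefl _ (hs0.2 a h).1
          refine ⟨insert a s0, ⟨?_, ?_⟩, by rw [card_insert_of_notMem hna, hc0]⟩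
          · intro b hb c hc hbc
            have hlt : ∀ d ∈ s0, d < a ∧ σ d < σ a := fun d hd =>
              ⟨(hs0.2 d hd).1, by rw [Fin.lt_def, hij]; exact (hs0.2 d hd).2⟩
            rcases mem_insert.1 (mem_coe.1 hb) with rfl | hb <;>
              rcases mem_insert.1 (mem_coe.1 hc) with rfl | hc
            · exact absurd hbc (lt_irrefl _)
            · exact absurd hbc (not_lt.2 (hlt c hc).1.le)
            · exact (hlt b hb).2
            · exact hs0.1 (mem_coe.2 hb) (mem_coe.2 hc) hbc
          · intro b hb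
            rcases mem_insert.1 hb with rfl | hb
            · exact ⟨Nat.lt_succ_self _, by omega⟩
            · exact ⟨(hs0.2 b hb).1.trans (Nat.lt_succ_self _), (hs0.2 b hb).2.trans (Nat.lt_succ_self _)⟩
      · rw [if_neg hx] at hlen
        rw [hlen]
        constructor
        · intro s hs
          by_cases h1 : ∀ b ∈ s, (σ b).val < j
          · exact (ub1 s ⟨hs.1, fun b hb => ⟨(hs.2 b hb).1, h1 b hb⟩⟩).trans (le_max_left _ _)
          by_cases h2 : ∀ b ∈ s, b.val < i
          · exact (ub2 s ⟨hs.1, fun b hb => ⟨h2 b hb, (hs.2 b hb).2⟩⟩).trans (le_max_right _ _)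
          push Not at h1 h2
          obtain ⟨b, hb, hbj⟩ := h1
          obtain ⟨c, hc, hci⟩ := h2
          have hbj' : (σ b).val = j := le_antisymm (Nat.lt_succ_iff.1 (hs.2 b hb).2) hbj
          have hci' : c.val = i := le_antisymm (Nat.lt_succ_iff.1 (hs.2 c hc).1) hci
          exfalso
          rcases eq_or_ne b c with rfl | hne
          · subst hci'
            exact hx (permMark_iff.2 ⟨b.isLt, hbj'⟩)
          · have hlt : b < c := by
              have := (hs.2 b hb).1
              refine lt_of_le_of_ne ?_ hne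
              rw [Fin.le_def]; omega
            have := hs.1 (mem_coe.2 hb) (mem_coe.2 hc) hlt
            rw [Fin.lt_def, hbj'] at this
            have := (hs.2 c hc).2
            omega
        · rcases le_total (rlen (growth (permMark σ) (i + 1) j) 0)
            (rlen (growth (permMark σ) i (j + 1)) 0) with h | h
          · exact ⟨s2, ⟨hs2.1, fun b hb => ⟨(hs2.2 b hb).1.trans (Nat.lt_succ_self _), (hs2.2 b hb).2⟩⟩,
              by rw [max_eq_right h, hc2]⟩
          · exact ⟨s1, ⟨hs1.1, fun b hb => ⟨(hs1.2 b hb).1, (hs1.2 b hb).2.trans (Nat.lt_succ_self _)⟩⟩,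
              by rw [max_eq_left h, hc1]⟩

/-! ### Chains and tableaux -/

variable {S : Finset (ℕ × ℕ)}

/-- The cells with small entries. -/
def chainOfTableau (T : Tableau S n) (i : ℕ) : Finset (ℕ × ℕ) :=
  S.attach.filter (fun x => (T.1 x).val < i) |>.image Subtype.val

lemma mem_chainOfTableau {T : Tableau S n} {i : ℕ} {d : ℕ × ℕ} :
    d ∈ chainOfTableau T i ↔ ∃ h : d ∈ S, (T.1 ⟨d, h⟩).val < i := by
  simp [chainOfTableau]

lemma chainOfTableau_n (T : Tableau S n) : chainOfTableau T n = S := by
  ext d
  rw [mem_chainOfTableau]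
  exact ⟨fun ⟨h, _⟩ => h, fun h => ⟨h, (T.1 ⟨d, h⟩).isLt⟩⟩

lemma isChainOf_tableau (hS : IsShape S) (T : Tableau S n) : IsChainOf n (chainOfTableau T) := by
  refine ⟨fun i => ?_, fun i => ?_, fun i d hd => ?_⟩
  · intro x y hyx hx
    obtain ⟨h, hlt⟩ := mem_chainOfTableau.1 (mem_coe.1 hx)
    have hy : y ∈ S := hS.down h hyx.1 hyx.2
    refine mem_coe.2 (mem_chainOfTableau.2 ⟨hy, lt_of_le_of_lt ?_ hlt⟩)
    exact Fin.le_def.1 (T.2.monotone (show (⟨y, hy⟩ : S) ≤ ⟨x, h⟩ from hyx))
  · rw [chainOfTableau, card_image_of_injective _ Subtype.val_injective, attach_eq_univ,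
      ← card_image_of_injective _ T.1.injective]
    have he : (univ.filter fun x : S => (T.1 x).val < i).image T.1 =
        univ.filter fun b : Fin n => b.val < i := by
      ext b
      simp only [mem_image, mem_filter, mem_univ, true_and]
      exact ⟨fun ⟨x, hx, h⟩ => h ▸ hx, fun h => ⟨T.1.symm b, by simpa using h, by simp⟩⟩
    rw [he, ← card_image_of_injective _ Fin.val_injective]
    have he' : (univ.filter fun b : Fin n => b.val < i).image Fin.val = range (min i n) := by
      ext b
      simp only [mem_image, mem_filter, mem_univ, true_and, mem_range, lt_min_iff]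
      exact ⟨fun ⟨x, hx, h⟩ => h ▸ ⟨hx, x.isLt⟩, fun h => ⟨⟨b, h.2⟩, h.1, rfl⟩⟩
    rw [he', card_range]
  · obtain ⟨h, hlt⟩ := mem_chainOfTableau.1 hd
    exact mem_chainOfTableau.2 ⟨h, Nat.lt_succ_of_lt hlt⟩

lemma chainOfTableau_injective : Function.Injective (chainOfTableau : Tableau S n → _) := by
  intro T U h
  refine Subtype.ext (Equiv.ext fun x => Fin.ext ?_)
  have key : ∀ i, (T.1 x).val < i ↔ (U.1 x).val < i := by
    intro i
    have h1 := Finset.ext_iff.1 (congrFun h i) x.1
    rw [mem_chainOfTableau, mem_chainOfTableau] at h1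
    simpa [x.2] using h1
  have := (key _).1 (Nat.lt_succ_self _)
  have := (key _).2 (Nat.lt_succ_self _)
  omega

lemma exists_tableau {P : ℕ → Finset (ℕ × ℕ)} (hP : IsChainOf n P) (hS : P n = S) :
    ∃ T : Tableau S n, chainOfTableau T = P := by
  have hmono : Monotone P := monotone_nat_of_le_succ hP.mono
  have hex : ∀ x : S, ∃ i, x.1 ∈ P (i + 1) := fun x =>
    ⟨n, hmono (Nat.le_succ n) (show x.1 ∈ P n by rw [hS]; exact x.2)⟩
  let t : S → ℕ := fun x => Nat.find (hex x)
  have hzero : P 0 = ∅ := card_eq_zero.1 (by rw [hP.card]; simp)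
  have hmem : ∀ (x : S) (i : ℕ), x.1 ∈ P i ↔ t x < i := by
    intro x i
    constructor
    · intro h
      cases i with
      | zero => rw [hzero] at h; exact absurd h (notMem_empty _)
      | succ i => exact Nat.lt_succ_of_le (Nat.find_min' _ h)
    · intro h
      exact hmono h (Nat.find_spec (hex x))
  have hlt : ∀ x : S, t x < n := fun x => (hmem x n).1 (by rw [hS]; exact x.2)
  have hinj : Function.Injective fun x : S => (⟨t x, hlt x⟩ : Fin n) := by
    intro x y h
    have he : t x = t y := congrArg Fin.val h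
    by_contra hne
    have hsub : {x.1, y.1} ⊆ P (t x + 1) \ P (t x) := by
      intro d hd
      simp only [mem_insert, mem_singleton] at hd
      rcases hd with rfl | rfl <;>
      simp only [mem_sdiff, hmem] <;> omega
    have := card_le_card hsub
    rw [card_sdiff_of_subset (hP.mono _), hP.card, hP.card,
      card_pair (fun e => hne (Subtype.ext e))] at this
    omega
  have hcard : Fintype.card S = Fintype.card (Fin n) := by
    rw [Fintype.card_coe, ← hS, hP.card, Fintype.card_fin, min_self]
  let e : S ≃ Fin n := Equiv.ofBijective _ ((Fintype.bijective_iff_injective_and_card _).2 ⟨hinj, hcard⟩)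
  refine ⟨⟨e, fun x y hxy => ?_⟩, funext fun i => Finset.ext fun d => ?_⟩
  · have h1 : x.1 ∈ P (t y + 1) :=
      (hP.shape _).down ((hmem y _).2 (Nat.lt_succ_self _)) hxy.le.1 hxy.le.2
    exact lt_of_le_of_ne (Fin.le_def.2 (Nat.lt_succ_iff.1 ((hmem x _).1 h1)))
      (fun h => hxy.ne (e.injective h))
  · rw [mem_chainOfTableau]
    constructor
    · rintro ⟨h, hlt'⟩
      exact (hmem ⟨d, h⟩ i).2 hlt'
    · intro h
      have hdS : d ∈ S := by
        rw [← hS]
        rcases Nat.le_total i n with hi | hi
        · exact hmono hi h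
        · rwa [← hP.const i hi]
      exact ⟨hdS, (hmem ⟨d, hdS⟩ i).1 h⟩

/-- Sides are pairs of tableaux. -/
def pairsToSides (p : Σ S : {S : Finset (ℕ × ℕ) // IsShape S ∧ S.card = n},
    Tableau S.1 n × Tableau S.1 n) : SidePair n :=
  ⟨(chainOfTableau p.2.1, chainOfTableau p.2.2), isChainOf_tableau p.1.2.1 _,
    isChainOf_tableau p.1.2.1 _, by simp only; rw [chainOfTableau_n, chainOfTableau_n]⟩

lemma pairsToSides_bijective : Function.Bijective (pairsToSides (n := n)) := by
  constructor
  · rintro ⟨⟨S, hS⟩, T, U⟩ ⟨⟨S', hS'⟩, T', U'⟩ h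
    simp only [pairsToSides, Subtype.mk.injEq, Prod.mk.injEq] at h
    have hSS : S = S' := by
      have h3 := congrFun h.1 n
      rwa [chainOfTableau_n, chainOfTableau_n] at h3
    subst hSS
    rw [chainOfTableau_injective h.1, chainOfTableau_injective h.2]
  · rintro ⟨⟨P, Q⟩, hP, hQ, hPQ⟩
    obtain ⟨T, hT⟩ := exists_tableau hP rfl
    obtain ⟨U, hU⟩ := exists_tableau hQ hPQ.symm
    exact ⟨⟨⟨P n, hP.shape n, by rw [hP.card, min_self]⟩, T, U⟩,
      Subtype.ext (Prod.ext hT hU)⟩

/-- The Robinson–Schensted correspondence. -/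
def correspondence (n : ℕ) : Equiv.Perm (Fin n) ≃
    Σ S : {S : Finset (ℕ × ℕ) // IsShape S ∧ S.card = n}, Tableau S.1 n × Tableau S.1 n :=
  (Equiv.ofBijective sides ⟨sides_injective, sides_surjective⟩).trans
    (Equiv.ofBijective pairsToSides pairsToSides_bijective).symm

theorem correspondence_props (σ : Equiv.Perm (Fin n)) :
    (correspondence n σ).1.1 = growth (permMark σ) n n ∧
      correspondence n σ.symm =
        ⟨(correspondence n σ).1, (correspondence n σ).2.2, (correspondence n σ).2.1⟩ := by
  have hkey : ∀ τ : Equiv.Perm (Fin n), pairsToSides (correspondence n τ) = sides τ := fun τ => by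
    simp [correspondence, Equiv.ofBijective_apply_symm_apply pairsToSides pairsToSides_bijective]
  constructor
  · rw [← chainOfTableau_n (correspondence n σ).2.1]
    exact congrFun (congrArg (fun p => p.1.1) (hkey σ)) n
  · apply pairsToSides_bijective.1
    rw [hkey]
    refine Subtype.ext (Prod.ext (funext fun i => ?_) (funext fun j => ?_))
    · show growth (permMark σ.symm) i n = chainOfTableau (correspondence n σ).2.2 i
      rw [growth_perm_symm]
      exact (congrFun (congrArg (fun p => p.1.2) (hkey σ)) i).symm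
    · show growth (permMark σ.symm) n j = chainOfTableau (correspondence n σ).2.1 j
      rw [growth_perm_symm]
      exact (congrFun (congrArg (fun p => p.1.1) (hkey σ)) j).symm

/-- The theorem of Erdős and Szekeres. -/
theorem erdos_szekeres_aux {α : Type*} [LinearOrder α] {m r s : ℕ} (f : Fin m → α)
    (hf : Function.Injective f) (hm : r * s < m) :
    (∃ t : Finset (Fin m), t.card = r + 1 ∧ StrictMonoOn f (t : Set (Fin m))) ∨
      ∃ t : Finset (Fin m), t.card = s + 1 ∧ StrictAntiOn f (t : Set (Fin m)) := by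
  let E : Fin m → Finset (Finset (Fin m)) := fun a => univ.filter fun t : Finset (Fin m) =>
    a ∈ t ∧ (∀ b ∈ t, b ≤ a) ∧ StrictMonoOn f (t : Set (Fin m))
  have hne : ∀ a, ({a} : Finset (Fin m)) ∈ E a := fun a => by simp [E, StrictMonoOn]
  let L : Fin m → ℕ := fun a => (E a).sup card
  by_cases hbig : ∃ a, r < L a
  · obtain ⟨a, ha⟩ := hbig
    obtain ⟨t, ht, hlt⟩ := Finset.lt_sup_iff.1 ha
    obtain ⟨u, hu, hcard⟩ := exists_subset_card_eq (s := t) (n := r + 1) hlt
    exact Or.inl ⟨u, hcard, (mem_filter.1 ht).2.2.2.mono (coe_subset.2 hu)⟩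
  push Not at hbig
  right
  have h1 : ∀ a, L a ∈ Icc 1 r := fun a =>
    mem_Icc.2 ⟨(card_singleton a).symm.le.trans (le_sup (f := card) (hne a)), hbig a⟩
  obtain ⟨k, -, hk⟩ := exists_lt_card_fiber_of_mul_lt_card_of_maps_to (n := s)
    (s := (univ : Finset (Fin m))) (t := Icc 1 r) (f := L) (fun a _ => h1 a)
    (by simpa using hm)
  obtain ⟨u, hu, hcard⟩ := exists_subset_card_eq (s := univ.filter fun a => L a = k) (n := s + 1) hk
  refine ⟨u, hcard, fun a ha b hb hab => ?_⟩
  have e : L a = L b := (mem_filter.1 (hu ha)).2.trans (mem_filter.1 (hu hb)).2.symm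
  by_contra hle
  have hlt : f a < f b := lt_of_le_of_ne (not_lt.1 hle) (hf.ne hab.ne)
  obtain ⟨t, ht, hmax⟩ := exists_mem_eq_sup (E a) ⟨_, hne a⟩ card
  obtain ⟨-, hat, htle, htm⟩ := mem_filter.1 ht
  have hbt : b ∉ t := fun h => not_lt.2 (htle b h) hab
  have hle' : ∀ c ∈ t, f c ≤ f a := fun c hc => htm.monotoneOn hc hat (htle c hc)
  have hins : insert b t ∈ E b := by
    refine mem_filter.2 ⟨mem_univ _, mem_insert_self _ _, fun c hc => ?_, fun c hc d hd hcd => ?_⟩
    · rcases mem_insert.1 hc with rfl | hc
      · exact le_rfl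
      · exact (htle c hc).trans hab.le
    · rcases mem_insert.1 (mem_coe.1 hc) with rfl | hc' <;>
        rcases mem_insert.1 (mem_coe.1 hd) with rfl | hd'
      · exact absurd hcd (lt_irrefl _)
      · exact absurd hcd (not_lt.2 ((htle d hd').trans hab.le))
      · exact (hle' c hc').trans_lt hlt
      · exact htm hc' hd' hcd
  have := le_sup (f := card) hins
  rw [card_insert_of_notMem hbt] at this
  have e' : (E a).sup card = (E b).sup card := e
  omega

end FA.Schensted
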