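import Fermat.Agent.YoungHook.Tableaux

/-!
# Fomin's local rule

The rule that completes a square of a growth diagram, and its inverse.
-/

set_option autoImplicit false

noncomputable section

namespace FA.Schensted

open Finset Classical
open FA.YoungHook

/-- One shape lies in the other with at most one cell more. -/
def Step (l m : Finset (ℕ × ℕ)) : Prop := l ⊆ m ∧ m.card ≤ l.card + 1

/-- The row of the extra cell. -/
def rowOfStep (l m : Finset (ℕ × ℕ)) : ℕ := ∑ d ∈ m \ l, d.1

/-- The fourth corner of a square from three corners and the mark in it. -/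
def rule (l m ν : Finset (ℕ × ℕ)) (x : Bool) : Finset (ℕ × ℕ) :=
  if x then insert (0, rlen l 0) l
  else if m = ν ∧ m ≠ l then insert (rowOfStep l m + 1, rlen m (rowOfStep l m + 1)) m
  else m ∪ ν

/-- The first corner and the mark from the other three corners. -/
def invRule (m ν ρ : Finset (ℕ × ℕ)) : Finset (ℕ × ℕ) × Bool :=
  if m = ν ∧ ρ ≠ m then
    if rowOfStep m ρ = 0 then (m, true)
    else (m.erase (rowOfStep m ρ - 1, rlen m (rowOfStep m ρ - 1) - 1), false)
  else (m ∩ ν, false)

/-- Three corners and a mark that can occur. -/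
structure Valid (l m ν : Finset (ℕ × ℕ)) (x : Bool) : Prop where
  shape₀ : IsShape l
  shape₁ : IsShape m
  shape₂ : IsShape ν
  step₁ : Step l m
  step₂ : Step l ν
  mark : x = true → m = l ∧ ν = l

variable {l m ν ρ : Finset (ℕ × ℕ)} {x : Bool}

lemma step_self (l : Finset (ℕ × ℕ)) : Step l l := ⟨subset_rfl, Nat.le_succ _⟩

lemma step_insert (l : Finset (ℕ × ℕ)) (a : ℕ × ℕ) : Step l (insert a l) :=
  ⟨subset_insert _ _, card_insert_le _ _⟩

lemma step_cases (h : Step l m) (hl : IsShape l) (hm : IsShape m) :
    m = l ∨ ∃ a, IsAddable l a ∧ a ∉ l ∧ m = insert a l := by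
  by_cases he : m \ l = ∅
  · exact Or.inl (subset_antisymm (sdiff_eq_empty_iff_subset.1 he) h.1)
  · right
    have hc : (m \ l).card = 1 := by
      have := card_sdiff_of_subset h.1
      have := card_pos.2 (nonempty_iff_ne_empty.2 he)
      have := h.2
      omega
    obtain ⟨a, ha⟩ := card_eq_one.1 hc
    have hins : m = insert a l := by
      rw [insert_eq, ← ha, sdiff_union_of_subset h.1]
    have hal : a ∉ l := (mem_sdiff.1 (ha ▸ mem_singleton_self a)).2
    exact ⟨a, (isAddable_iff hl).2 ⟨hal, hins ▸ hm⟩, hal, hins⟩

lemma rowOfStep_insert {a : ℕ × ℕ} (ha : a ∉ l) : rowOfStep l (insert a l) = a.1 := by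
  have h : insert a l \ l = {a} := by
    ext d
    simp only [mem_sdiff, mem_insert, mem_singleton]
    exact ⟨fun hd => hd.1.resolve_right hd.2, fun hd => ⟨Or.inl hd, hd ▸ ha⟩⟩
  rw [rowOfStep, h, sum_singleton]

lemma rlen_insert {a : ℕ × ℕ} (ha : a ∉ l) (i : ℕ) :
    rlen (insert a l) i = rlen l i + if i = a.1 then 1 else 0 := by
  have h := rlen_erase a (mem_insert_self a l) i
  rw [erase_insert ha] at h
  split_ifs with hi
  · have hp : 0 < rlen (insert a l) i := card_pos.2 ⟨a, mem_filter.2 ⟨mem_insert_self _ _, hi.symm⟩⟩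
    rw [if_pos hi] at h
    omega
  · rw [if_neg hi] at h; omega

lemma rlen_zero_union (hm : IsShape m) (hν : IsShape ν) (hu : IsShape (m ∪ ν)) :
    rlen (m ∪ ν) 0 = max (rlen m 0) (rlen ν 0) := by
  refine le_antisymm ?_ (max_le (card_le_card (filter_subset_filter _ subset_union_left))
    (card_le_card (filter_subset_filter _ subset_union_right)))
  by_contra hlt
  rcases mem_union.1 ((mem_iff_rlen hu).2 (Nat.lt_of_not_le hlt)) with h | h
  · have := (mem_iff_rlen hm).1 h; omega
  · have := (mem_iff_rlen hν).1 h; omega

lemma isShape_union (hm : IsShape m) (hν : IsShape ν) : IsShape (m ∪ ν) := by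
  unfold IsShape at *
  rw [coe_union]
  exact hm.union hν

lemma isShape_inter (hm : IsShape m) (hν : IsShape ν) : IsShape (m ∩ ν) := by
  unfold IsShape at *
  rw [coe_inter]
  exact hm.inter hν

/-- The properties of the rule. -/
theorem rule_forward (hv : Valid l m ν x) :
    IsShape (rule l m ν x) ∧ Step m (rule l m ν x) ∧ Step ν (rule l m ν x) ∧
      (rule l m ν x).card + l.card = m.card + ν.card + x.toNat ∧
      invRule m ν (rule l m ν x) = (l, x) ∧
      rlen (rule l m ν x) 0 = if x then rlen l 0 + 1 else max (rlen m 0) (rlen ν 0) := by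
  cases x with
  | true =>
    obtain ⟨e1, e2⟩ := hv.mark rfl
    rw [e1, e2]
    have ha : IsAddable l (0, rlen l 0) := ⟨rfl, Or.inl rfl⟩
    obtain ⟨hn, hs⟩ := (isAddable_iff hv.shape₀).1 ha
    have hρ : rule l l l true = insert (0, rlen l 0) l := if_pos rfl
    rw [hρ]
    refine ⟨hs, step_insert _ _, step_insert _ _, ?_, ?_, ?_⟩
    · rw [card_insert_of_notMem hn]; simp; omega
    · unfold invRule
      rw [if_pos ⟨rfl, fun h => hn ((Finset.ext_iff.1 h _).1 (mem_insert_self _ _))⟩,
        if_pos (rowOfStep_insert hn)]
    · rw [rlen_insert hn]; simp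
  | false =>
    simp only [Bool.toNat_false, add_zero, Bool.false_eq_true, if_false]
    by_cases hb : m = ν ∧ m ≠ l
    · obtain ⟨rfl, hne⟩ := hb
      obtain ⟨⟨i, j⟩, hadd, hal, hins⟩ := (step_cases hv.step₁ hv.shape₀ hv.shape₁).resolve_left hne
      have hrow : rowOfStep l m = i := by rw [hins]; exact rowOfStep_insert hal
      have hr1 : rlen m i = j + 1 := by
        have := hadd.1
        simp only at this
        rw [hins, rlen_insert hal, if_pos rfl]; omega
      have hr2 : rlen m (i + 1) ≤ j := by
        have h1 : rlen l (i + 1) ≤ rlen l i := rlen_anti hv.shape₀ (Nat.le_succ i)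
        have := hadd.1
        simp only at this
        rw [hins, rlen_insert hal, if_neg (by simp)]
        omega
      set b : ℕ × ℕ := (i + 1, rlen m (i + 1)) with hb'
      have hbadd : IsAddable m b := ⟨rfl, Or.inr (by simp [hb']; omega)⟩
      obtain ⟨hn, hs⟩ := (isAddable_iff hv.shape₁).1 hbadd
      have hρ : rule l m m false = insert b m := by
        simp [rule, hne, hrow, hb']
      rw [hρ]
      refine ⟨hs, step_insert _ _, step_insert _ _, ?_, ?_, ?_⟩
      · rw [card_insert_of_notMem hn, hins, card_insert_of_notMem hal]; omega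
      · unfold invRule
        rw [if_pos ⟨rfl, fun h => hn (h ▸ mem_insert_self _ _)⟩, rowOfStep_insert hn,
          if_neg (by simp [hb'])]
        simp only [hb', Nat.add_sub_cancel, hr1]
        rw [hins, erase_insert hal]
      · rw [rlen_insert hn, if_neg (by simp [hb']), max_self, add_zero]
    · have hρ : rule l m ν false = m ∪ ν := by simp [rule, hb]
      rw [hρ]
      have hu := isShape_union hv.shape₁ hv.shape₂
      have key : ((m ∪ ν).card + l.card = m.card + ν.card) ∧ Step m (m ∪ ν) ∧ Step ν (m ∪ ν) ∧
          invRule m ν (m ∪ ν) = (l, false) := by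
        by_cases he : m = ν
        · subst he
          have hml : m = l := by_contra fun h => hb ⟨rfl, h⟩
          subst hml
          simp [invRule, step_self]
        · have hinter : m ∩ ν = l := by
            refine subset_antisymm ?_ (subset_inter hv.step₁.1 hv.step₂.1)
            rcases step_cases hv.step₁ hv.shape₀ hv.shape₁ with h | ⟨a, -, ha, h⟩
            · exact h ▸ inter_subset_left
            · rcases step_cases hv.step₂ hv.shape₀ hv.shape₂ with h' | ⟨a', -, ha', h'⟩
              · exact h' ▸ inter_subset_right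
              · intro d hd
                rw [mem_inter, h, h', mem_insert, mem_insert] at hd
                rcases hd with ⟨rfl | hd1, hd2⟩
                · rcases hd2 with rfl | hd2
                  · exact absurd (h.trans h'.symm) he
                  · exact hd2
                · exact hd1
          have hcard := card_union_add_card_inter m ν
          rw [hinter] at hcard
          refine ⟨hcard, ⟨subset_union_left, ?_⟩, ⟨subset_union_right, ?_⟩, ?_⟩
          · have := hv.step₂.2; omega
          · have := hv.step₁.2; omega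
          · simp [invRule, he, hinter]
      exact ⟨hu, key.2.1, key.2.2.1, key.1, key.2.2.2, rlen_zero_union hv.shape₁ hv.shape₂ hu⟩

/-- The inverse rule undoes the rule. -/
theorem rule_backward (hm : IsShape m) (hν : IsShape ν) (hρ : IsShape ρ) (h1 : Step m ρ)
    (h2 : Step ν ρ) :
    Valid (invRule m ν ρ).1 m ν (invRule m ν ρ).2 ∧
      rule (invRule m ν ρ).1 m ν (invRule m ν ρ).2 = ρ := by
  by_cases hb : m = ν ∧ ρ ≠ m
  · obtain ⟨rfl, hne⟩ := hb
    obtain ⟨⟨i, j⟩, hadd, hal, hins⟩ := (step_cases h1 hm hρ).resolve_left hne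
    have hrow : rowOfStep m ρ = i := by rw [hins]; exact rowOfStep_insert hal
    have hj : j = rlen m i := hadd.1
    by_cases h0 : i = 0
    · subst h0
      have hinv : invRule m m ρ = (m, true) := by
        unfold invRule
        rw [if_pos ⟨rfl, hne⟩, if_pos hrow]
      rw [hinv]
      exact ⟨⟨hm, hm, hm, step_self m, step_self m, fun _ => ⟨rfl, rfl⟩⟩,
        by rw [hins, hj]; exact if_pos rfl⟩
    · obtain ⟨i, rfl⟩ : ∃ k, i = k + 1 := ⟨i - 1, by omega⟩
      have hlt : rlen m (i + 1) < rlen m i := by
        rcases hadd.2 with h | h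
        · simp at h
        · simpa using h
      set c : ℕ × ℕ := (i, rlen m i - 1) with hc
      have hcor : IsCorner m c := by
        refine ⟨(mem_iff_rlen hm).2 (by omega), fun h => ?_, fun h => ?_⟩
        · have h' := (mem_iff_rlen hm).1 h; simp only [hc] at h'; omega
        · have h' := (mem_iff_rlen hm).1 h; simp only [hc] at h'; omega
      have hinv : invRule m m ρ = (m.erase c, false) := by
        unfold invRule
        rw [if_pos ⟨rfl, hne⟩, hrow, if_neg (Nat.succ_ne_zero i)]
        simp [hc]
      rw [hinv]
      have hstep : Step (m.erase c) m := by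
        refine ⟨erase_subset _ _, ?_⟩
        have := card_erase_add_one hcor.1
        omega
      have hml : m ≠ m.erase c := fun h => notMem_erase c m (h ▸ hcor.1)
      have hrow' : rowOfStep (m.erase c) m = i := by
        have := rowOfStep_insert (notMem_erase c m)
        rwa [insert_erase hcor.1] at this
      refine ⟨⟨isShape_erase hm hcor, hm, hm, hstep, hstep, fun h => by simp at h⟩, ?_⟩
      simp [rule, hml, hrow', hins, hj]
  · have hinv : invRule m ν ρ = (m ∩ ν, false) := if_neg hb
    rw [hinv]
    have hsub : m ∪ ν ⊆ ρ := union_subset h1.1 h2.1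
    have hcard := card_union_add_card_inter m ν
    by_cases he : m = ν
    · subst he
      have hρm : ρ = m := by_contra fun h => hb ⟨rfl, h⟩
      subst hρm
      simp only [inter_self]
      exact ⟨⟨hm, hm, hm, step_self ρ, step_self ρ, fun h => by simp at h⟩, by simp [rule]⟩
    · have hu : m ∪ ν = ρ := by
        refine eq_of_subset_of_card_le hsub ?_
        by_contra hlt
        have hlt' : (m ∪ ν).card < ρ.card := Nat.lt_of_not_le hlt
        have e1 : m = m ∪ ν := eq_of_subset_of_card_le subset_union_left (by have := h1.2; omega)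
        have e2 : ν = m ∪ ν := eq_of_subset_of_card_le subset_union_right (by have := h2.2; omega)
        exact he (e1.trans e2.symm)
      have hu' : (m ∪ ν).card ≤ m.card + 1 ∧ (m ∪ ν).card ≤ ν.card + 1 := by
        rw [hu]; exact ⟨h1.2, h2.2⟩
      dsimp only
      refine ⟨⟨isShape_inter hm hν, hm, hν, ⟨inter_subset_left, by omega⟩,
        ⟨inter_subset_right, by omega⟩, fun h => by simp at h⟩, ?_⟩
      simp [rule, he, hu]

end FA.Schensted
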